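/-
S41 leaf DSG (helper87): Deligne–Serre lifting on a saturated Hecke-stable sublattice of
`Hom(Γ₀(M), ℤ)`, instantiating the landed abstract eigen-lift `H84.exists_eigen_lift_of_mod_p`.

* `finite_hom_int`: `Hom(G, ℤ)` is a finite `ℤ`-module for a finitely generated group `G`;
* `castC M`: `Hom(Γ₀(M), ℤ) → Hom(Γ₀(M), ℂ)`, injective;
* `heckeLin M ℓ`: the Hecke operator on `Hom(Γ₀(M), ℂ)` as a `ℂ`-linear map;
* `dsg`: the lifting statement;
* span transfer lemmas.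
-/
import Mathlib
import Fermat.Agent.S16.H75.Gamma0Hecke
import Fermat.Agent.S22.H75.Gamma0FG
import Fermat.Agent.S41.H84.EigenLift

set_option autoImplicit false

open CongruenceSubgroup ModularCurve ModularCurve.Period
open Fermat.Agent.S16.H75 (heckeHom)

namespace Fermat.Agent.S41.H87

section Generic

variable {G : Type*} [Group G]

/-- Two additive maps on `Additive G` agreeing on a generating set are equal. -/
theorem addHom_ext_of_closure {A : Type*} [AddCommGroup A] {S : Set G}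
    (hS : Subgroup.closure S = ⊤) {φ ψ : Additive G →+ A}
    (h : ∀ g ∈ S, φ (Additive.ofMul g) = ψ (Additive.ofMul g)) : φ = ψ := by
  have key : ∀ γ : G, φ (Additive.ofMul γ) = ψ (Additive.ofMul γ) := by
    intro γ
    have hγ : γ ∈ Subgroup.closure S := by rw [hS]; trivial
    induction hγ using Subgroup.closure_induction with
    | mem g hg => exact h g hg
    | one => rw [ofMul_one, map_zero, map_zero]
    | mul a b _ _ ha hb => rw [ofMul_mul, map_add, map_add, ha, hb]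
    | inv a _ ha => rw [ofMul_inv, map_neg, map_neg, ha]
  exact AddMonoidHom.ext fun γ => key (Additive.toMul γ)

/-- `Hom(G, ℤ)` is a finite `ℤ`-module for a finitely generated group `G`. -/
theorem finite_hom_int [Group.FG G] : Module.Finite ℤ (Additive G →+ ℤ) := by
  classical
  obtain ⟨S, hS⟩ := Group.fg_def.mp (inferInstance : Group.FG G)
  let ev : (Additive G →+ ℤ) →ₗ[ℤ] (S → ℤ) :=
    { toFun := fun φ g => φ (Additive.ofMul (g : G))
      map_add' := fun φ ψ => rfl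
      map_smul' := fun n φ => rfl }
  have hev : Function.Injective ev := by
    intro φ ψ h
    apply addHom_ext_of_closure hS
    intro g hg
    exact congrFun h ⟨g, hg⟩
  exact Module.Finite.of_injective ev hev

end Generic

/-- Composition with `ℤ → ℂ`. -/
def castC (M : ℕ) : (Additive (Gamma0 M) →+ ℤ) →+ (Additive (Gamma0 M) →+ ℂ) where
  toFun u := (Int.castAddHom ℂ).comp u
  map_zero' := by ext; simp
  map_add' u v := by ext; simp

@[simp]
theorem castC_apply (M : ℕ) (u : Additive (Gamma0 M) →+ ℤ) (γ : Additive (Gamma0 M)) :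
    castC M u γ = ((u γ : ℤ) : ℂ) := rfl

theorem castC_eq_comp (M : ℕ) (u : Additive (Gamma0 M) →+ ℤ) :
    castC M u = (Int.castAddHom ℂ).comp u := rfl

theorem castC_injective (M : ℕ) : Function.Injective (castC M) := by
  intro u v h
  ext γ
  have := DFunLike.congr_fun h (Additive.ofMul γ)
  exact Int.cast_injective this

/-- The Hecke operator on `Hom(Γ₀(M), ℂ)` as a `ℂ`-linear map. -/
noncomputable def heckeLin (M : ℕ) (ℓ : Nat.Primes) :
    (Additive (Gamma0 M) →+ ℂ) →ₗ[ℂ] (Additive (Gamma0 M) →+ ℂ) where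
  toFun := heckeHom M ℓ ℂ
  map_add' := map_add _
  map_smul' z v := by
    have h1 : z • v = (AddMonoidHom.mulLeft z).comp v := by
      ext γ; rfl
    have h2 : z • heckeHom M ℓ ℂ v = (AddMonoidHom.mulLeft z).comp (heckeHom M ℓ ℂ v) := by
      ext γ; rfl
    simp only [RingHom.id_apply]
    rw [h1, h2, Fermat.Agent.S16.H75.heckeHom_comp]

@[simp]
theorem heckeLin_apply (M : ℕ) (ℓ : Nat.Primes) (v : Additive (Gamma0 M) →+ ℂ) :
    heckeLin M ℓ v = heckeHom M ℓ ℂ v := rfl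

theorem heckeLin_castC (M : ℕ) (ℓ : Nat.Primes) (u : Additive (Gamma0 M) →+ ℤ) :
    heckeLin M ℓ (castC M u) = castC M (heckeHom M ℓ ℤ u) := by
  rw [heckeLin_apply, castC_eq_comp, castC_eq_comp, Fermat.Agent.S16.H75.heckeHom_comp]

/-- **DSG.**  A saturated sublattice `B` of `Hom(Γ₀(M), ℤ)`, stable under the commuting Hecke
operators indexed by `P`, containing a class `y ∉ p Hom` which is an eigenvector modulo `p` with
eigenvalues `a ℓ` (`ℓ ∈ I ⊆ P`): the complex span of `B` contains a common eigenvector of the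
operators in `P` whose eigenvalues are algebraic integers congruent to `a ℓ` (`ℓ ∈ I`) modulo a
maximal ideal over `p`. -/
theorem dsg {M p : ℕ} [NeZero M] (B : Submodule ℤ (Additive (Gamma0 M) →+ ℤ))
    (P : Set Nat.Primes)
    (hBT : ∀ ℓ ∈ P, ∀ u ∈ B, heckeHom M ℓ ℤ u ∈ B)
    (hBcomm : ∀ ℓ ∈ P, ∀ ℓ' ∈ P, ∀ u ∈ B,
      heckeHom M ℓ ℤ (heckeHom M ℓ' ℤ u) = heckeHom M ℓ' ℤ (heckeHom M ℓ ℤ u))
    (hBsat : ∀ u, p • u ∈ B → u ∈ B)
    (I : Set Nat.Primes) (hIP : I ⊆ P) (a : Nat.Primes → ℤ)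
    (y : Additive (Gamma0 M) →+ ℤ) (hyB : y ∈ B) (hyp : ¬ ∃ z, y = p • z)
    (hy : ∀ ℓ ∈ I, ∃ z, heckeHom M ℓ ℤ y - a ℓ • y = p • z) :
    ∃ (v : Additive (Gamma0 M) →+ ℂ) (lam : Nat.Primes → integralClosure ℤ ℂ)
      (𝔪' : Ideal (integralClosure ℤ ℂ)),
      v ≠ 0 ∧ v ∈ Submodule.span ℂ (castC M '' (B : Set (Additive (Gamma0 M) →+ ℤ))) ∧
      𝔪'.IsMaximal ∧ (p : integralClosure ℤ ℂ) ∈ 𝔪' ∧
      (∀ ℓ ∈ P, heckeHom M ℓ ℂ v = ((lam ℓ : integralClosure ℤ ℂ) : ℂ) • v) ∧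
      ∀ ℓ ∈ I, lam ℓ - (a ℓ : integralClosure ℤ ℂ) ∈ 𝔪' := by
  classical
  have : Group.FG (Gamma0 M) := Fermat.Agent.S22.H75.fg_Gamma0 M
  have hfin : Module.Finite ℤ (Additive (Gamma0 M) →+ ℤ) := finite_hom_int
  have hnoeth : IsNoetherian ℤ (Additive (Gamma0 M) →+ ℤ) :=
    isNoetherian_of_isNoetherianRing_of_finite ℤ _
  have hfinB : Module.Finite ℤ B := Module.IsNoetherian.finite ℤ B
  -- the data for the abstract eigen-lift
  let j : B →+ (Additive (Gamma0 M) →+ ℂ) := (castC M).comp B.subtype.toAddMonoidHom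
  have hj : Function.Injective j := fun u v h => Subtype.ext (castC_injective M h)
  let S : P → (B →+ B) := fun ℓ =>
    ((heckeHom M ℓ ℤ).toIntLinearMap.restrict (fun u hu => hBT ℓ ℓ.2 u hu)).toAddMonoidHom
  have hS : ∀ (ℓ : P) (u : B), ((S ℓ u : B) : Additive (Gamma0 M) →+ ℤ) = heckeHom M ℓ ℤ u :=
    fun ℓ u => rfl
  let SW : P → ((Additive (Gamma0 M) →+ ℂ) →ₗ[ℂ] (Additive (Gamma0 M) →+ ℂ)) :=
    fun ℓ => heckeLin M ℓ
  have hy₀ : ¬ ∃ z : B, (⟨y, hyB⟩ : B) = p • z := by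
    rintro ⟨z, hz⟩
    exact hyp ⟨z, by simpa using congrArg Subtype.val hz⟩
  have hc : ∀ ℓ ∈ {ℓ : P | (ℓ : Nat.Primes) ∈ I},
      ∃ z : B, S ℓ ⟨y, hyB⟩ - a ℓ • (⟨y, hyB⟩ : B) = p • z := by
    intro ℓ hℓ
    obtain ⟨z, hz⟩ := hy ℓ hℓ
    have hzB : z ∈ B := by
      apply hBsat
      rw [← hz]
      exact B.sub_mem (hBT ℓ ℓ.2 y hyB) (B.smul_mem _ hyB)
    exact ⟨⟨z, hzB⟩, Subtype.ext hz⟩
  obtain ⟨w, lam, 𝔪', hw0, hwmem, hmax, hp𝔪, heig, hcong⟩ :=
    Fermat.Agent.S41.H84.exists_eigen_lift_of_mod_p j hj S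
      (fun ℓ ℓ' u => Subtype.ext (hBcomm ℓ ℓ.2 ℓ' ℓ'.2 u u.2)) SW
      (fun ℓ u => heckeLin_castC M ℓ u) p ⟨y, hyB⟩ hy₀ {ℓ : P | (ℓ : Nat.Primes) ∈ I}
      (fun ℓ => a ℓ) hc
  refine ⟨w, fun ℓ => if h : ℓ ∈ P then lam ⟨ℓ, h⟩ else 0, 𝔪', hw0, ?_, hmax, hp𝔪, ?_, ?_⟩
  · have hrange : Set.range j = castC M '' (B : Set (Additive (Gamma0 M) →+ ℤ)) := by
      ext x
      constructor
      · rintro ⟨u, rfl⟩
        exact ⟨u, u.2, rfl⟩
      · rintro ⟨u, hu, rfl⟩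
        exact ⟨⟨u, hu⟩, rfl⟩
    rw [← hrange]
    exact hwmem
  · intro ℓ hℓ
    beta_reduce
    rw [dif_pos hℓ]
    exact heig ⟨ℓ, hℓ⟩
  · intro ℓ hℓ
    beta_reduce
    rw [dif_pos (hIP hℓ)]
    exact hcong ⟨ℓ, hIP hℓ⟩ hℓ

/-- Parabolicity passes to the complex span. -/
theorem isParabolicHom_of_mem_span {M : ℕ} (s : Set (Additive (Gamma0 M) →+ ℤ))
    (hs : ∀ u ∈ s, IsParabolicHom (Gamma0 M) u) {v : Additive (Gamma0 M) →+ ℂ}
    (hv : v ∈ Submodule.span ℂ (castC M '' s)) : IsParabolicHom (Gamma0 M) v := by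
  have hle : Submodule.span ℂ (castC M '' s) ≤ parabolicHoms ℂ (Gamma0 M) ℂ := by
    rw [Submodule.span_le]
    rintro _ ⟨u, hu, rfl⟩
    intro γ hγ
    show ((u (Additive.ofMul γ) : ℤ) : ℂ) = 0
    rw [hs u hu γ hγ, Int.cast_zero]
  exact hle hv

/-- An identity `T (T u) = u` on the lattice passes to the complex span. -/
theorem heckeHom_heckeHom_of_mem_span {M : ℕ} (ℓ : Nat.Primes)
    (s : Set (Additive (Gamma0 M) →+ ℤ))
    (hs : ∀ u ∈ s, heckeHom M ℓ ℤ (heckeHom M ℓ ℤ u) = u) {v : Additive (Gamma0 M) →+ ℂ}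
    (hv : v ∈ Submodule.span ℂ (castC M '' s)) :
    heckeHom M ℓ ℂ (heckeHom M ℓ ℂ v) = v := by
  have hle : Submodule.span ℂ (castC M '' s) ≤
      LinearMap.ker (heckeLin M ℓ ∘ₗ heckeLin M ℓ - LinearMap.id) := by
    rw [Submodule.span_le]
    rintro _ ⟨u, hu, rfl⟩
    rw [SetLike.mem_coe, LinearMap.mem_ker, LinearMap.sub_apply, LinearMap.comp_apply,
      heckeLin_castC, heckeLin_castC, hs u hu, LinearMap.id_apply, sub_self]
  have := hle hv
  rw [LinearMap.mem_ker, LinearMap.sub_apply, LinearMap.comp_apply, LinearMap.id_apply,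
    sub_eq_zero] at this
  exact this

end Fermat.Agent.S41.H87
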