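/-
S41 leaf DSG, kernel form (helper87).

`dsg_ker`: the statement (DSG) of the S41 architecture, with the two transfers abstracted to two
additive maps `b₁ b₂` out of `Hom(Γ₀(M), ℤ)`:  for `B = {u parabolic | b₁ u = 0 ∧ b₂ u = 0}`,
a class `y ∈ B`, `y ∉ p Hom`, which is an eigenvector modulo `p` of the Hecke operators in `I ⊆ P`
lifts to a nonzero parabolic complex eigenvector `v` of all operators in `P`, with eigenvalues in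
`ℤ̄` congruent to the given integers modulo a maximal ideal over `p`, and `U_q (U_q v) = v`.
The output is exactly the input of the landed (T4) `H40.exists_eigenform_of_hom`.
-/
import Mathlib
import Fermat.Agent.S41.H87.Dsg

set_option autoImplicit false

open CongruenceSubgroup ModularCurve ModularCurve.Period
open Fermat.Agent.S16.H75 (heckeHom)

namespace Fermat.Agent.S41.H87

/-- The sublattice of parabolic classes killed by two additive maps. -/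
def kerLattice {M : ℕ} {X₁ X₂ : Type*} [AddCommGroup X₁] [AddCommGroup X₂]
    (b₁ : (Additive (Gamma0 M) →+ ℤ) →+ X₁) (b₂ : (Additive (Gamma0 M) →+ ℤ) →+ X₂) :
    Submodule ℤ (Additive (Gamma0 M) →+ ℤ) :=
  parabolicHoms ℤ (Gamma0 M) ℤ ⊓ LinearMap.ker b₁.toIntLinearMap ⊓
    LinearMap.ker b₂.toIntLinearMap

theorem mem_kerLattice {M : ℕ} {X₁ X₂ : Type*} [AddCommGroup X₁] [AddCommGroup X₂]
    {b₁ : (Additive (Gamma0 M) →+ ℤ) →+ X₁} {b₂ : (Additive (Gamma0 M) →+ ℤ) →+ X₂}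
    {u : Additive (Gamma0 M) →+ ℤ} :
    u ∈ kerLattice b₁ b₂ ↔ IsParabolicHom (Gamma0 M) u ∧ b₁ u = 0 ∧ b₂ u = 0 := by
  unfold kerLattice
  rw [Submodule.mem_inf, Submodule.mem_inf, LinearMap.mem_ker, LinearMap.mem_ker, and_assoc]
  rfl

/-- A hom to `ℤ` is parabolic as soon as a nonzero multiple of it is. -/
theorem isParabolicHom_of_nsmul {M : ℕ} {n : ℕ} (hn : n ≠ 0) {u : Additive (Gamma0 M) →+ ℤ}
    (h : IsParabolicHom (Gamma0 M) (n • u)) : IsParabolicHom (Gamma0 M) u := by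
  intro γ hγ
  have h1 : n • u (Additive.ofMul γ) = 0 := h γ hγ
  rw [smul_eq_zero] at h1
  rcases h1 with h1 | h1
  · exact absurd h1 hn
  · exact h1

/-- `Hom(G, ℤ)` has no `n`-torsion. -/
theorem addHom_int_eq_zero_of_nsmul {G : Type*} [AddZeroClass G] {n : ℕ} (hn : n ≠ 0)
    (u : G →+ ℤ) (h : n • u = 0) : u = 0 := by
  ext γ
  have h1 : n • u γ = 0 := DFunLike.congr_fun h γ
  rw [smul_eq_zero] at h1
  rcases h1 with h1 | h1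
  · exact absurd h1 hn
  · exact h1

/-- **(DSG), kernel form.** -/
theorem dsg_ker {M p : ℕ} [NeZero M] (hp : p ≠ 0) {X₁ X₂ : Type*} [AddCommGroup X₁]
    [AddCommGroup X₂] (htf₁ : ∀ x : X₁, p • x = 0 → x = 0) (htf₂ : ∀ x : X₂, p • x = 0 → x = 0)
    (b₁ : (Additive (Gamma0 M) →+ ℤ) →+ X₁) (b₂ : (Additive (Gamma0 M) →+ ℤ) →+ X₂)
    (P : Set Nat.Primes)
    (hpar : ∀ ℓ ∈ P, ∀ u : Additive (Gamma0 M) →+ ℤ, IsParabolicHom (Gamma0 M) u →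
      IsParabolicHom (Gamma0 M) (heckeHom M ℓ ℤ u))
    (hcomm : ∀ ℓ ∈ P, ∀ ℓ' ∈ P, ∀ u : Additive (Gamma0 M) →+ ℤ, IsParabolicHom (Gamma0 M) u →
      heckeHom M ℓ ℤ (heckeHom M ℓ' ℤ u) = heckeHom M ℓ' ℤ (heckeHom M ℓ ℤ u))
    (hb₁ : ∀ ℓ ∈ P, ∀ u : Additive (Gamma0 M) →+ ℤ, b₁ u = 0 → b₁ (heckeHom M ℓ ℤ u) = 0)
    (hb₂ : ∀ ℓ ∈ P, ∀ u : Additive (Gamma0 M) →+ ℤ, b₂ u = 0 → b₂ (heckeHom M ℓ ℤ u) = 0)
    (q : Nat.Primes)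
    (hUQ : ∀ u : Additive (Gamma0 M) →+ ℤ, b₁ u = 0 → b₂ u = 0 →
      heckeHom M q ℤ (heckeHom M q ℤ u) = u)
    (I : Set Nat.Primes) (hIP : I ⊆ P) (a : Nat.Primes → ℤ)
    (y : Additive (Gamma0 M) →+ ℤ) (hypar : IsParabolicHom (Gamma0 M) y)
    (hy₁ : b₁ y = 0) (hy₂ : b₂ y = 0) (hyp : ¬ ∃ z, y = p • z)
    (hy : ∀ ℓ ∈ I, ∃ z, heckeHom M ℓ ℤ y - a ℓ • y = p • z) :
    ∃ (v : Additive (Gamma0 M) →+ ℂ) (lam : Nat.Primes → integralClosure ℤ ℂ)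
      (𝔪' : Ideal (integralClosure ℤ ℂ)),
      v ≠ 0 ∧ IsParabolicHom (Gamma0 M) v ∧ 𝔪'.IsMaximal ∧ (p : integralClosure ℤ ℂ) ∈ 𝔪' ∧
      (∀ ℓ ∈ P, heckeHom M ℓ ℂ v = ((lam ℓ : integralClosure ℤ ℂ) : ℂ) • v) ∧
      (∀ ℓ ∈ I, lam ℓ - (a ℓ : integralClosure ℤ ℂ) ∈ 𝔪') ∧
      heckeHom M q ℂ (heckeHom M q ℂ v) = v := by
  have hBT : ∀ ℓ ∈ P, ∀ u ∈ kerLattice b₁ b₂, heckeHom M ℓ ℤ u ∈ kerLattice b₁ b₂ := by
    intro ℓ hℓ u hu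
    rw [mem_kerLattice] at hu ⊢
    exact ⟨hpar ℓ hℓ u hu.1, hb₁ ℓ hℓ u hu.2.1, hb₂ ℓ hℓ u hu.2.2⟩
  have hBcomm : ∀ ℓ ∈ P, ∀ ℓ' ∈ P, ∀ u ∈ kerLattice b₁ b₂,
      heckeHom M ℓ ℤ (heckeHom M ℓ' ℤ u) = heckeHom M ℓ' ℤ (heckeHom M ℓ ℤ u) :=
    fun ℓ hℓ ℓ' hℓ' u hu => hcomm ℓ hℓ ℓ' hℓ' u (mem_kerLattice.mp hu).1
  have hBsat : ∀ u, p • u ∈ kerLattice b₁ b₂ → u ∈ kerLattice b₁ b₂ := by
    intro u hu
    rw [mem_kerLattice] at hu ⊢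
    refine ⟨isParabolicHom_of_nsmul hp hu.1, ?_, ?_⟩
    · have h1 := hu.2.1
      rw [map_nsmul] at h1
      exact htf₁ _ h1
    · have h2 := hu.2.2
      rw [map_nsmul] at h2
      exact htf₂ _ h2
  obtain ⟨v, lam, 𝔪', hv0, hvmem, hmax, hp𝔪, heig, hcong⟩ :=
    dsg (kerLattice b₁ b₂) P hBT hBcomm hBsat I hIP a y
      (mem_kerLattice.mpr ⟨hypar, hy₁, hy₂⟩) hyp hy
  refine ⟨v, lam, 𝔪', hv0, ?_, hmax, hp𝔪, heig, hcong, ?_⟩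
  · exact isParabolicHom_of_mem_span _ (fun u hu => (mem_kerLattice.mp hu).1) hvmem
  · exact heckeHom_heckeHom_of_mem_span q _
      (fun u hu => hUQ u (mem_kerLattice.mp hu).2.1 (mem_kerLattice.mp hu).2.2) hvmem

end Fermat.Agent.S41.H87
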