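/-
S41 leaf (DSG) of the binding architecture, against the landed `H41.beta1`, `H41.beta2` (helper87).

The U2 leaves which are not yet on main (`beta1_heckeHom`, `beta2_heckeHom`,
`heckeHom_q_sq_of_beta_eq_zero`) and the dictionary leaves (`isParabolicHom_heckeHom`,
`heckeHom_comm` over `ℤ`) enter as explicit hypotheses, in the exact shapes of their statements.
The conclusion is the input of the landed (T4) `H40.exists_eigenform_of_hom`.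
-/
import Mathlib
import Fermat.Agent.S41.H41.Transfer
import Fermat.Agent.S41.H87.DsgKer

set_option autoImplicit false

open CongruenceSubgroup ModularCurve ModularCurve.Period
open Fermat.Agent.S16.H75 (heckeHom)
open Fermat.Agent.S41.H41

namespace Fermat.Agent.S41.H87

/-- **(DSG)**, against `beta1`, `beta2`: a parabolic `y : Γ₀(N q) → ℤ` killed by both transfers,
not divisible by `p`, eigen modulo `p` for `T_ℓ` (`ℓ ∈ I`, `ℓ ∤ N q`) with eigenvalues `a ℓ`, gives a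
nonzero parabolic complex eigenvector `v` of all `T_ℓ` (`ℓ ∤ N q`), with eigenvalues in `ℤ̄`
congruent to `a ℓ` (`ℓ ∈ I`) modulo a maximal ideal over `p`, and `U_q (U_q v) = v`. -/
theorem dsg_beta {N q p : ℕ} [NeZero (N * q)] (hp : p ≠ 0) (hq : q.Prime)
    (hEQB1 : ∀ ℓ : Nat.Primes, ¬ (ℓ : ℕ) ∣ N * q → ∀ u : Additive (Gamma0 (N * q)) →+ ℤ,
      beta1 N q ℤ (heckeHom (N * q) ℓ ℤ u) = heckeHom N ℓ ℤ (beta1 N q ℤ u))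
    (hEQB2 : ∀ ℓ : Nat.Primes, ¬ (ℓ : ℕ) ∣ N * q → ∀ u : Additive (Gamma0 (N * q)) →+ ℤ,
      beta2 N q ℤ (heckeHom (N * q) ℓ ℤ u) = heckeHom N ℓ ℤ (beta2 N q ℤ u))
    (hUQ : ∀ u : Additive (Gamma0 (N * q)) →+ ℤ, beta1 N q ℤ u = 0 → beta2 N q ℤ u = 0 →
      heckeHom (N * q) ⟨q, hq⟩ ℤ (heckeHom (N * q) ⟨q, hq⟩ ℤ u) = u)
    (hpar : ∀ (ℓ : Nat.Primes) (u : Additive (Gamma0 (N * q)) →+ ℤ),
      IsParabolicHom (Gamma0 (N * q)) u → IsParabolicHom (Gamma0 (N * q)) (heckeHom (N * q) ℓ ℤ u))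
    (hcomm : ∀ (ℓ ℓ' : Nat.Primes) (u : Additive (Gamma0 (N * q)) →+ ℤ),
      IsParabolicHom (Gamma0 (N * q)) u →
      heckeHom (N * q) ℓ ℤ (heckeHom (N * q) ℓ' ℤ u) =
        heckeHom (N * q) ℓ' ℤ (heckeHom (N * q) ℓ ℤ u))
    (I : Set Nat.Primes) (hI : ∀ ℓ ∈ I, ¬ (ℓ : ℕ) ∣ N * q) (a : Nat.Primes → ℤ)
    (y : Additive (Gamma0 (N * q)) →+ ℤ) (hypar : IsParabolicHom (Gamma0 (N * q)) y)
    (hy₁ : beta1 N q ℤ y = 0) (hy₂ : beta2 N q ℤ y = 0) (hyp : ¬ ∃ z, y = p • z)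
    (hy : ∀ ℓ ∈ I, ∃ z, heckeHom (N * q) ℓ ℤ y - a ℓ • y = p • z) :
    ∃ (v : Additive (Gamma0 (N * q)) →+ ℂ) (lam : Nat.Primes → integralClosure ℤ ℂ)
      (𝔪' : Ideal (integralClosure ℤ ℂ)),
      v ≠ 0 ∧ IsParabolicHom (Gamma0 (N * q)) v ∧ 𝔪'.IsMaximal ∧
      (p : integralClosure ℤ ℂ) ∈ 𝔪' ∧
      (∀ ℓ : Nat.Primes, ¬ (ℓ : ℕ) ∣ N * q →
        heckeHom (N * q) ℓ ℂ v = ((lam ℓ : integralClosure ℤ ℂ) : ℂ) • v) ∧
      (∀ ℓ ∈ I, lam ℓ - (a ℓ : integralClosure ℤ ℂ) ∈ 𝔪') ∧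
      heckeHom (N * q) ⟨q, hq⟩ ℂ (heckeHom (N * q) ⟨q, hq⟩ ℂ v) = v := by
  refine dsg_ker hp (fun x h => addHom_int_eq_zero_of_nsmul hp x h)
    (fun x h => addHom_int_eq_zero_of_nsmul hp x h) (beta1 N q ℤ) (beta2 N q ℤ)
    {ℓ : Nat.Primes | ¬ (ℓ : ℕ) ∣ N * q} (fun ℓ _ u hu => hpar ℓ u hu)
    (fun ℓ _ ℓ' _ u hu => hcomm ℓ ℓ' u hu) ?_ ?_ ⟨q, hq⟩ hUQ I hI a y hypar hy₁ hy₂ hyp hy
  · intro ℓ hℓ u hu
    rw [hEQB1 ℓ hℓ, hu, map_zero]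
  · intro ℓ hℓ u hu
    rw [hEQB2 ℓ hℓ, hu, map_zero]

end Fermat.Agent.S41.H87
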