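/-
S41 leaf RED, abstract part (helper87).  Mathlib only.

`exists_reduction`: for a finite set `s ⊆ ℂ` with a nonzero element, a proper ideal `𝔪` of
`ℤ̄ = integralClosure ℤ ℂ` containing the prime `p`, there is an additive map
`ρ : span_ℤ̄ s → 𝔽_p`, nonzero on some element of `s`, such that every `β : ℤ̄` congruent to an
integer `c` modulo `𝔪` acts through `c`:  `ρ (β • n) = c • ρ n`.
-/
import Mathlib

set_option autoImplicit false

namespace Fermat.Agent.S41.H87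

open Submodule

/-- Nakayama: a nonzero finitely generated `ℤ̄`-submodule of `ℂ` is not `𝔪`-divisible. -/
theorem exists_mem_not_mem_smul (𝔪 : Ideal (integralClosure ℤ ℂ)) (hm : 𝔪 ≠ ⊤)
    (s : Set ℂ) (hs : s.Finite) (hs0 : ∃ z ∈ s, z ≠ 0) :
    ∃ z ∈ s, z ∉ 𝔪 • Submodule.span (integralClosure ℤ ℂ) s := by
  by_contra hcon
  have hcon : ∀ z ∈ s, z ∈ 𝔪 • Submodule.span (integralClosure ℤ ℂ) s := by
    intro z hz
    by_contra h
    exact hcon ⟨z, hz, h⟩
  have hle : Submodule.span (integralClosure ℤ ℂ) s ≤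
      𝔪 • Submodule.span (integralClosure ℤ ℂ) s := Submodule.span_le.mpr hcon
  obtain ⟨r, hr1, hr⟩ := Submodule.exists_sub_one_mem_and_smul_eq_zero_of_fg_of_le_smul 𝔪
    (Submodule.span (integralClosure ℤ ℂ) s) (Submodule.fg_span hs) hle
  obtain ⟨z, hz, hz0⟩ := hs0
  have h1 := hr z (Submodule.subset_span hz)
  have h2 : (r : ℂ) * z = 0 := h1
  have h3 : (r : ℂ) = 0 := by
    rcases mul_eq_zero.mp h2 with h | h
    · exact h
    · exact absurd h hz0
  have h4 : r = 0 := Subtype.ext h3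
  apply hm
  rw [Ideal.eq_top_iff_one]
  rw [h4, zero_sub] at hr1
  simpa using 𝔪.neg_mem hr1

/-- A vector space over `𝔽_p` has enough additive characters to `𝔽_p`. -/
theorem exists_addHom_zmod_ne_zero_of_module {p : ℕ} [Fact p.Prime] {Q : Type*} [AddCommGroup Q]
    [Module (ZMod p) Q] (v : Q) (hv : v ≠ 0) : ∃ φ : Q →+ ZMod p, φ v ≠ 0 := by
  have h : ∃ φ : Q →ₗ[ZMod p] ZMod p, φ v ≠ 0 := by
    by_contra hcon
    refine hv ((Module.forall_dual_apply_eq_zero_iff (ZMod p) v).mp fun φ => ?_)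
    by_contra h
    exact hcon ⟨φ, h⟩
  obtain ⟨φ, hφ⟩ := h
  exact ⟨φ.toAddMonoidHom, hφ⟩

/-- An abelian group killed by a prime `p` has enough additive characters to `𝔽_p`. -/
theorem exists_addHom_zmod_ne_zero {p : ℕ} [Fact p.Prime] {Q : Type*} [AddCommGroup Q]
    (hpQ : ∀ x : Q, p • x = 0) (v : Q) (hv : v ≠ 0) : ∃ φ : Q →+ ZMod p, φ v ≠ 0 :=
  @exists_addHom_zmod_ne_zero_of_module p _ Q _ (AddCommGroup.zmodModule hpQ) v hv

/-- Reduction modulo an ideal: additive characters of `M / I M` to `𝔽_p`. -/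
theorem exists_addHom_of_not_mem_smul {R : Type*} [CommRing R] {M : Type*} [AddCommGroup M]
    [Module R M] (I : Ideal R) {p : ℕ} [Fact p.Prime] (hpI : (p : R) ∈ I) (m : M)
    (hm : m ∉ I • (⊤ : Submodule R M)) :
    ∃ ρ : M →+ ZMod p, ρ m ≠ 0 ∧
      ∀ (β : R) (c : ℤ), β - (c : R) ∈ I → ∀ n : M, ρ (β • n) = c • ρ n := by
  set K : Submodule R M := I • (⊤ : Submodule R M) with hKdef
  have hK : ∀ a : R, a ∈ I → ∀ n : M, a • n ∈ K := fun a ha n =>
    Submodule.smul_mem_smul ha Submodule.mem_top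
  have hpQ : ∀ x : M ⧸ K, p • x = 0 := by
    intro x
    induction x using Submodule.Quotient.induction_on with
    | _ n =>
      rw [← Submodule.Quotient.mk_smul, Submodule.Quotient.mk_eq_zero]
      have := hK _ hpI n
      rwa [Nat.cast_smul_eq_nsmul] at this
  have hv : (Submodule.Quotient.mk m : M ⧸ K) ≠ 0 := by
    rwa [Ne, Submodule.Quotient.mk_eq_zero]
  obtain ⟨φ, hφ⟩ := exists_addHom_zmod_ne_zero hpQ _ hv
  refine ⟨φ.comp (K.mkQ.toAddMonoidHom), hφ, fun β c hβ n => ?_⟩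
  show φ (Submodule.Quotient.mk (β • n)) = c • φ (Submodule.Quotient.mk n)
  have h1 : (Submodule.Quotient.mk (β • n) : M ⧸ K) = c • Submodule.Quotient.mk n := by
    rw [← Submodule.Quotient.mk_smul, Submodule.Quotient.eq]
    have h2 := hK _ hβ n
    rw [sub_smul] at h2
    rwa [Int.cast_smul_eq_zsmul] at h2
  rw [h1, map_zsmul]

theorem exists_reduction {p : ℕ} (hp : p.Prime) (𝔪 : Ideal (integralClosure ℤ ℂ)) (hm : 𝔪 ≠ ⊤)
    (hpm : (p : integralClosure ℤ ℂ) ∈ 𝔪) (s : Set ℂ) (hs : s.Finite) (hs0 : ∃ z ∈ s, z ≠ 0) :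
    ∃ ρ : Submodule.span (integralClosure ℤ ℂ) s →+ ZMod p,
      (∃ (z : ℂ) (hz : z ∈ s), ρ ⟨z, Submodule.subset_span hz⟩ ≠ 0) ∧
      ∀ (β : integralClosure ℤ ℂ) (c : ℤ), β - (c : integralClosure ℤ ℂ) ∈ 𝔪 →
        ∀ n : Submodule.span (integralClosure ℤ ℂ) s, ρ (β • n) = c • ρ n := by
  have : Fact p.Prime := ⟨hp⟩
  obtain ⟨z₀, hz₀, hz₀not⟩ := exists_mem_not_mem_smul 𝔪 hm s hs hs0
  have hz₀K : (⟨z₀, Submodule.subset_span hz₀⟩ : Submodule.span (integralClosure ℤ ℂ) s) ∉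
      𝔪 • (⊤ : Submodule (integralClosure ℤ ℂ) (Submodule.span (integralClosure ℤ ℂ) s)) := by
    intro h
    apply hz₀not
    have h1 : Submodule.map (Submodule.span (integralClosure ℤ ℂ) s).subtype
        (𝔪 • (⊤ : Submodule (integralClosure ℤ ℂ) (Submodule.span (integralClosure ℤ ℂ) s))) =
        𝔪 • Submodule.span (integralClosure ℤ ℂ) s := by
      rw [Submodule.map_smul'', Submodule.map_top, Submodule.range_subtype]
    rw [← h1]
    exact ⟨_, h, rfl⟩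
  obtain ⟨ρ, hρ, hρ'⟩ := exists_addHom_of_not_mem_smul 𝔪 hpm _ hz₀K
  exact ⟨ρ, ⟨z₀, hz₀, hρ⟩, hρ'⟩

end Fermat.Agent.S41.H87
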