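/-
S41 leaf RED, glue part (helper87).

`red_core`: a nonzero parabolic `x_ℂ : Γ₀(N) → ℂ` reduces, modulo a proper ideal `𝔪 ∋ p` of
`ℤ̄ = integralClosure ℤ ℂ`, to a nonzero parabolic torsion-killing `x : Γ₀(N) → 𝔽_p` such that
every Hecke eigenvalue of `x_ℂ` in `ℤ̄` which is congruent to an integer `c` modulo `𝔪` gives the
eigenvalue `c` of `x`.

`red_of_eigenHom`: leaf RED of the S41 top skeleton, from the complex eigen-hom (leaf T1).
-/
import Fermat.Statements.S41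
import Fermat.Agent.S16.H75.Gamma0Hecke
import Fermat.Agent.S22.H75.Gamma0FG
import Fermat.Agent.S41.H87.RedAlg

set_option autoImplicit false

open CongruenceSubgroup ModularCurve ModularCurve.Period
open Fermat.Agent.S16.H75 (heckeHom)

namespace Fermat.Agent.S41.H87

theorem red_core {p N : ℕ} [NeZero N] (hp : p.Prime)
    (𝔪 : Ideal (integralClosure ℤ ℂ)) (hm : 𝔪 ≠ ⊤) (hpm : (p : integralClosure ℤ ℂ) ∈ 𝔪)
    (xC : Additive (Gamma0 N) →+ ℂ) (hx0 : xC ≠ 0) (hxpar : IsParabolicHom (Gamma0 N) xC) :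
    ∃ x : Additive (Gamma0 N) →+ ZMod p, x ≠ 0 ∧ IsParabolicHom (Gamma0 N) x ∧
      (∀ γ : Gamma0 N, IsOfFinOrder γ → x (Additive.ofMul γ) = 0) ∧
      ∀ (ℓ : Nat.Primes) (β : integralClosure ℤ ℂ) (c : ℤ),
        heckeHom N ℓ ℂ xC = (β : ℂ) • xC → β - (c : integralClosure ℤ ℂ) ∈ 𝔪 →
          heckeHom N ℓ (ZMod p) x = c • x := by
  classical
  obtain ⟨S, hStop, hSfin⟩ := Group.fg_iff.mp (Fermat.Agent.S22.H75.fg_Gamma0 N)
  set s : Set ℂ := (fun γ : Gamma0 N => xC (Additive.ofMul γ)) '' S with hs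
  have hsfin : s.Finite := hSfin.image _
  -- all values of `xC` lie in the `ℤ̄`-span of the values on the generators
  have hmem : ∀ γ : Gamma0 N,
      xC (Additive.ofMul γ) ∈ Submodule.span (integralClosure ℤ ℂ) s := by
    intro γ
    have hγ : γ ∈ Subgroup.closure S := by rw [hStop]; trivial
    induction hγ using Subgroup.closure_induction with
    | mem g hg => exact Submodule.subset_span ⟨g, hg, rfl⟩
    | one => simp
    | mul a b _ _ ha hb =>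
      rw [ofMul_mul, map_add]
      exact Submodule.add_mem _ ha hb
    | inv a _ ha =>
      rw [ofMul_inv, map_neg]
      exact Submodule.neg_mem _ ha
  have hmem' : ∀ γ : Additive (Gamma0 N), xC γ ∈ Submodule.span (integralClosure ℤ ℂ) s :=
    fun γ => hmem (Additive.toMul γ)
  have hs0 : ∃ z ∈ s, z ≠ 0 := by
    by_contra hcon
    apply hx0
    have hall : ∀ z ∈ s, z = 0 := by
      intro z hz
      by_contra h
      exact hcon ⟨z, hz, h⟩
    have hle : Submodule.span (integralClosure ℤ ℂ) s ≤ ⊥ :=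
      Submodule.span_le.mpr fun z hz => by
        rw [hall z hz]; exact Submodule.zero_mem _
    ext γ
    simpa using hle (hmem γ)
  obtain ⟨ρ, ⟨z₀, hz₀, hρz₀⟩, hρ⟩ := exists_reduction hp 𝔪 hm hpm s hsfin hs0
  -- the corestriction
  let xM : Additive (Gamma0 N) →+ Submodule.span (integralClosure ℤ ℂ) s :=
    xC.codRestrict (Submodule.span (integralClosure ℤ ℂ) s) hmem'
  have hxM : ∀ γ, ((xM γ : Submodule.span (integralClosure ℤ ℂ) s) : ℂ) = xC γ := fun _ => rfl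
  have hcomp : (Submodule.span (integralClosure ℤ ℂ) s).subtype.toAddMonoidHom.comp xM = xC := by
    ext γ; rfl
  refine ⟨ρ.comp xM, ?_, ?_, ?_, ?_⟩
  · -- nonzero
    intro h0
    obtain ⟨g, hg, rfl⟩ := hz₀
    apply hρz₀
    have := DFunLike.congr_fun h0 (Additive.ofMul g)
    exact this
  · -- parabolic
    intro γ hγ
    have h1 : xM (Additive.ofMul γ) = 0 := Subtype.ext (hxpar γ hγ)
    show ρ (xM (Additive.ofMul γ)) = 0
    rw [h1, map_zero]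
  · -- torsion-killing
    intro γ hγ
    obtain ⟨n, hn, hγn⟩ := isOfFinOrder_iff_pow_eq_one.mp hγ
    have h1 : n • xC (Additive.ofMul γ) = 0 := by
      rw [← map_nsmul, ← ofMul_pow, hγn, ofMul_one, map_zero]
    have h2 : xC (Additive.ofMul γ) = 0 := by
      rw [nsmul_eq_mul] at h1
      rcases mul_eq_zero.mp h1 with h | h
      · exact absurd (Nat.cast_eq_zero.mp h) hn.ne'
      · exact h
    have h3 : xM (Additive.ofMul γ) = 0 := Subtype.ext h2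
    show ρ (xM (Additive.ofMul γ)) = 0
    rw [h3, map_zero]
  · -- Hecke
    intro ℓ β c hβ hβc
    have h1 : (Submodule.span (integralClosure ℤ ℂ) s).subtype.toAddMonoidHom.comp
        (heckeHom N ℓ _ xM) = (β : ℂ) • xC := by
      rw [← Fermat.Agent.S16.H75.heckeHom_comp, hcomp, hβ]
    have h2 : ∀ γ, heckeHom N ℓ _ xM γ = β • xM γ := by
      intro γ
      apply Subtype.ext
      have h3 := DFunLike.congr_fun h1 γ
      rw [Submodule.coe_smul, hxM]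
      exact h3
    rw [Fermat.Agent.S16.H75.heckeHom_comp]
    ext γ
    show ρ (heckeHom N ℓ _ xM γ) = c • ρ (xM γ)
    rw [h2, hρ β c hβc]

/-- A square congruence modulo a prime ideal: `β² ≡ m²` gives `β ≡ ε m`, `ε = ± 1`. -/
theorem exists_sign_of_sq_sub_sq_mem (𝔪 : Ideal (integralClosure ℤ ℂ)) (hprime : 𝔪.IsPrime)
    (β : integralClosure ℤ ℂ) (m : ℤ)
    (h : β ^ 2 - (m : integralClosure ℤ ℂ) ^ 2 ∈ 𝔪) :
    ∃ ε : ℤ, (ε = 1 ∨ ε = -1) ∧ β - ((ε * m : ℤ) : integralClosure ℤ ℂ) ∈ 𝔪 := by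
  have h1 : (β - (m : integralClosure ℤ ℂ)) * (β + (m : integralClosure ℤ ℂ)) ∈ 𝔪 := by
    have : (β - (m : integralClosure ℤ ℂ)) * (β + (m : integralClosure ℤ ℂ)) =
        β ^ 2 - (m : integralClosure ℤ ℂ) ^ 2 := by ring
    rw [this]; exact h
  rcases hprime.mem_or_mem h1 with h2 | h2
  · refine ⟨1, Or.inl rfl, ?_⟩
    rw [one_mul]; exact h2
  · refine ⟨-1, Or.inr rfl, ?_⟩
    have : β - ((-1 * m : ℤ) : integralClosure ℤ ℂ) = β + (m : integralClosure ℤ ℂ) := by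
      push_cast; ring
    rw [this]; exact h2

/-- **Leaf RED** of the S41 top skeleton, from the complex eigen-hom `xC` (leaf T1) with
eigenvalues `a ℓ`. -/
theorem red_of_eigenHom {W : WeierstrassCurve ℤ} {p N q' : ℕ} [NeZero N] (hp : p.Prime)
    (hq' : q'.Prime) (𝔪 : Ideal (integralClosure ℤ ℂ)) (hmax : 𝔪.IsMaximal)
    (hpm : (p : integralClosure ℤ ℂ) ∈ 𝔪) (a : Nat.Primes → ℂ)
    (xC : Additive (Gamma0 N) →+ ℂ) (hx0 : xC ≠ 0) (hxpar : IsParabolicHom (Gamma0 N) xC)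
    (hxeig : ∀ ℓ : Nat.Primes, heckeHom N ℓ ℂ xC = a ℓ • xC)
    (hcong : ∀ ℓ : Nat.Primes, W.IsGoodPrimeFor ℓ → ¬ (ℓ : ℕ) ∣ N → (ℓ : ℕ) ≠ p →
      ∃ b : integralClosure ℤ ℂ, (b : ℂ) = a ℓ ∧
        b - ((W.apOfModel ℓ : ℤ) : integralClosure ℤ ℂ) ∈ 𝔪)
    (hLR : ∃ b : integralClosure ℤ ℂ, (b : ℂ) = a ⟨q', hq'⟩ ∧
      b ^ 2 - ((q' : integralClosure ℤ ℂ) + 1) ^ 2 ∈ 𝔪) :
    ∃ (ε : ℤ) (x : Additive (Gamma0 N) →+ ZMod p), (ε = 1 ∨ ε = -1) ∧ x ≠ 0 ∧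
      IsParabolicHom (Gamma0 N) x ∧
      (∀ γ : Gamma0 N, IsOfFinOrder γ → x (Additive.ofMul γ) = 0) ∧
      (∀ ℓ : Nat.Primes, W.IsGoodPrimeFor ℓ → ¬ (ℓ : ℕ) ∣ N → (ℓ : ℕ) ≠ p →
        heckeHom N ℓ (ZMod p) x = W.apOfModel ℓ • x) ∧
      heckeHom N ⟨q', hq'⟩ (ZMod p) x = (ε * ((q' : ℤ) + 1)) • x := by
  obtain ⟨x, hx0', hxpar', hxell, hxH⟩ :=
    red_core hp 𝔪 hmax.ne_top hpm xC hx0 hxpar
  obtain ⟨b, hb, hb2⟩ := hLR
  have hb2' : b ^ 2 - (((q' : ℤ) + 1 : ℤ) : integralClosure ℤ ℂ) ^ 2 ∈ 𝔪 := by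
    have : (((q' : ℤ) + 1 : ℤ) : integralClosure ℤ ℂ) = (q' : integralClosure ℤ ℂ) + 1 := by
      push_cast; rfl
    rw [this]; exact hb2
  obtain ⟨ε, hε, hεb⟩ := exists_sign_of_sq_sub_sq_mem 𝔪 hmax.isPrime b _ hb2'
  refine ⟨ε, x, hε, hx0', hxpar', hxell, fun ℓ hgood hℓN hℓp => ?_, ?_⟩
  · obtain ⟨β, hβ, hβc⟩ := hcong ℓ hgood hℓN hℓp
    exact hxH ℓ β _ (by rw [hβ]; exact hxeig ℓ) hβc
  · exact hxH ⟨q', hq'⟩ b _ (by rw [hb]; exact hxeig _) hεb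

end Fermat.Agent.S41.H87
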